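import Fermat.Agent.H53.S14T.Interfaces

/-!
# P-S14, T-G0: `cycloExp` computes the action on `p`-th roots of unity
-/

set_option autoImplicit false

namespace Fermat.Agent.H5

/-- **T-G0**: `σ ζ = ζ ^ cycloExp p σ` for every `p`-th root of unity `ζ` of `ℚ̄`. -/
theorem cycloExp_spec : Fermat.Agent.H53.CycloExpStatement := by
  intro p _ ζ hζ σ
  haveI : NeZero p := ⟨(Fact.out : p.Prime).ne_zero⟩
  have hp0 : p ≠ 0 := (Fact.out : p.Prime).ne_zero
  have hu : IsUnit ζ := IsUnit.of_pow_eq_one hζ hp0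
  have hmem : hu.unit ∈ rootsOfUnity p (AlgebraicClosure ℚ) := by
    rw [mem_rootsOfUnity]
    apply Units.ext
    rw [Units.val_pow_eq_pow_val, IsUnit.unit_spec, hζ, Units.val_one]
  have h := modularCyclotomicCharacter.spec (AlgebraicClosure ℚ)
    (ExtCitation.card_rootsOfUnity_eq_self p)
    (σ : AlgebraicClosure ℚ ≃+* AlgebraicClosure ℚ) hmem
  rw [IsUnit.unit_spec] at h
  exact h

end Fermat.Agent.H5
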